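/-
S12 project, row 633 (STEP), the (LOC) half on the RATIONAL Vélu curve (seat helper73; split of
helper53's INT + LOC claim).

`W` an integral Weierstrass model, `T` a point of prime order `p ≠ 2` over `ℚ̄`, `A` a valuation
subring of `ℚ̄` over a prime `ℓ ≠ p`.  With Vélu's numbers

  `t = (∑_{0<k<p} tq (k • T)) / 2`,  `w = (∑_{0<k<p} (psi2 (k • T) ^ 2 + x(k • T) * tq (k • T))) / 2`

and the Vélu curve `V = veluQ W_ℚ t w = ⟨a₁, a₂, a₃, a₄ - 5 t, a₆ - b₂ t - 7 w⟩`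
(so `Δ(V) * veluPsi ^ 4 = Δ(W) ^ p`, the hypothesis `hψ`):

* `t_mem`, `w_mem` : `t, w ∈ A` (every `ℓ ≠ p`; no division by `2`: pairing `k ↔ p - k`);
* `val_disc_good` : `ℓ ∤ Δ(W)` ⟹ `Δ(V)` is a unit at `A`;
* `val_toric` : `ℓ ∣ Δ(W)`, `ℓ ∤ c₄(W)`, `T` in the zero component ⟹ `c₄(V)` unit, `Δ(V) ∈ 𝔪_A`;
* `val_nontoric` : `T` not in the zero component ⟹ `t, w ∈ 𝔪_A`, `c₄(V)` unit, `Δ(V) ∈ 𝔪_A`;
* `map_nontoric` : `T` not in the zero component, `P ≠ 0` in the zero component ⟹ the Vélu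
  coordinates `X = x_P + ∑ (x_{P + kT} - x_{kT})`, `Y = y_P + ∑ (y_{P + kT} - y_{kT})` are either
  non-integral (`X ∉ A`) or integral with NONSINGULAR reduction on the reduction of `W`
  (which is the reduction of `V`, since `t, w ∈ 𝔪_A`).

Mathlib + main's `S15P/M2/{Defs89, NodalRed69, Velu89}` (hence `S58/Red`) only.
-/
import Mathlib
import Fermat.Prelude.Def_EllipticCurve_ZeroComponentAt
import Fermat.Agent.S15P.M2.Defs89
import Fermat.Agent.S15P.M2.NodalRed69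
import Fermat.Agent.S15P.M2.Velu89

set_option autoImplicit false
set_option linter.unusedSectionVars false
set_option linter.style.haveILetI false

namespace Fermat.Agent.S12P.Step73

open WeierstrassCurve WeierstrassCurve.Affine IsLocalRing
open Fermat.Agent.S58.Red Fermat.Agent.S15P.M2 Fermat.Agent.S15P.M2.NodalRed69
  Fermat.Agent.S15P.M2.Velu89

/-! ### Generalities -/

/-- Pairing `k ↔ p - k` in a sum over `0 < k < p`, `p` odd. -/
theorem sum_Ico_pair {M : Type*} [AddCommMonoid M] (p : ℕ) (hp : Odd p) (f : ℕ → M)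
    (hf : ∀ k, 0 < k → k < p → f (p - k) = f k) :
    ∑ k ∈ Finset.Ico 1 p, f k = 2 • ∑ k ∈ Finset.Ico 1 ((p + 1) / 2), f k := by
  obtain ⟨m, rfl⟩ := hp
  have e : (2 * m + 1 + 1) / 2 = m + 1 := by omega
  rw [e]
  have h1 : ∑ k ∈ Finset.Ico 1 (2 * m + 1), f k =
      ∑ k ∈ Finset.Ico 1 (m + 1), f k + ∑ k ∈ Finset.Ico (m + 1) (2 * m + 1), f k :=
    (Finset.sum_Ico_consecutive f (by omega) (by omega)).symm
  have h2 : ∑ k ∈ Finset.Ico 1 (m + 1), f (2 * m + 1 - k) =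
      ∑ k ∈ Finset.Ico (m + 1) (2 * m + 1), f k := by
    have := Finset.sum_Ico_reflect f 1 (show m + 1 ≤ 2 * m + 1 + 1 by omega)
    have e1 : 2 * m + 1 + 1 - (m + 1) = m + 1 := by omega
    have e2 : 2 * m + 1 + 1 - 1 = 2 * m + 1 := by omega
    rwa [e1, e2] at this
  have h3 : ∑ k ∈ Finset.Ico 1 (m + 1), f (2 * m + 1 - k) = ∑ k ∈ Finset.Ico 1 (m + 1), f k := by
    refine Finset.sum_congr rfl fun k hk => ?_
    rw [Finset.mem_Ico] at hk
    exact hf k (by omega) (by omega)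
  rw [h1, ← h2, h3, two_nsmul]

section Field

variable {F : Type*} [Field F] [DecidableEq F] {E : Affine F}

theorem ptX_neg (P : E.Point) : ptX (-P) = ptX P := by
  rcases P with _ | ⟨x, y, h⟩
  · rfl
  · rw [Point.neg_some]
    rfl

theorem tq_neg (P : E.Point) : tq (-P) = tq P := by
  unfold tq
  rw [ptX_neg]

theorem psi2_neg_sq (P : E.Point) : psi2 (-P) ^ 2 = psi2 P ^ 2 := by
  rcases P with _ | ⟨x, y, h⟩
  · rfl
  · rw [Point.neg_some]
    simp only [psi2, ptX_some, ptY_some, Affine.negY]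
    ring

/-- `(p - k) • T = -(k • T)` for a point killed by `p`. -/
theorem sub_nsmul_eq_neg {T : E.Point} {p : ℕ} (hT : p • T = 0) {k : ℕ} (hk : k ≤ p) :
    (p - k) • T = -(k • T) := by
  rw [sub_nsmul T hk, hT, zero_add]

/-- **The singular point of a cubic with `c₄ ≠ 0` is unique.** -/
theorem sing_unique (hc₄ : E.c₄ ≠ 0) {c d c' d' : F}
    (he : E.Equation c d) (hs : ¬ E.Nonsingular c d)
    (he' : E.Equation c' d') (hs' : ¬ E.Nonsingular c' d') : c = c' ∧ d = d' := by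
  have key : ∀ {c d : F}, E.Equation c d → ¬ E.Nonsingular c d →
      E.a₁ * d = 3 * c ^ 2 + 2 * E.a₂ * c + E.a₄ ∧ 2 * d + E.a₁ * c + E.a₃ = 0 ∧
        E.c₄ * c = 18 * E.b₆ - E.b₂ * E.b₄ := by
    intro c d he hs
    have h0 := (equation_iff c d).mp he
    rw [nonsingular_iff] at hs
    have h1 : E.a₁ * d = 3 * c ^ 2 + 2 * E.a₂ * c + E.a₄ := by
      by_contra h
      exact hs ⟨he, Or.inl h⟩
    have h2 : d = -d - E.a₁ * c - E.a₃ := by
      by_contra h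
      exact hs ⟨he, Or.inr h⟩
    refine ⟨h1, by linear_combination h2, ?_⟩
    simp only [WeierstrassCurve.c₄, WeierstrassCurve.b₂, WeierstrassCurve.b₄,
      WeierstrassCurve.b₆]
    linear_combination (E.a₁ ^ 2 + 4 * E.a₂ + 12 * c) * (-2 * h1 + E.a₁ * h2) -
      18 * ((2 * d + E.a₁ * c + E.a₃) * h2 - 4 * h0)
  obtain ⟨h1, h2, h3⟩ := key he hs
  obtain ⟨h1', h2', h3'⟩ := key he' hs'
  have hc : c = c' := by
    have : E.c₄ * (c - c') = 0 := by linear_combination h3 - h3'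
    exact sub_eq_zero.mp ((mul_eq_zero.mp this).resolve_left hc₄)
  subst hc
  refine ⟨rfl, ?_⟩
  by_contra hd
  have hd' : d - d' ≠ 0 := sub_ne_zero.mpr hd
  have e2 : (2 : F) * (d - d') = 0 := by linear_combination h2 - h2'
  have e1 : E.a₁ * (d - d') = 0 := by linear_combination h1 - h1'
  have t2 : (2 : F) = 0 := (mul_eq_zero.mp e2).resolve_right hd'
  have ta : E.a₁ = 0 := (mul_eq_zero.mp e1).resolve_right hd'
  apply hc₄
  simp only [WeierstrassCurve.c₄, WeierstrassCurve.b₂, WeierstrassCurve.b₄, ta]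
  linear_combination (8 * E.a₂ ^ 2 - 24 * E.a₄) * t2

end Field

/-- Vélu's model `⟨a₁, a₂, a₃, a₄ - 5 t, a₆ - b₂ t - 7 w⟩`. -/
def veluQ {R : Type*} [CommRing R] (E : WeierstrassCurve R) (t w : R) : WeierstrassCurve R :=
  ⟨E.a₁, E.a₂, E.a₃, E.a₄ - 5 * t, E.a₆ - E.b₂ * t - 7 * w⟩

theorem veluQ_zero {R : Type*} [CommRing R] (E : WeierstrassCurve R) : veluQ E 0 0 = E := by
  ext <;> simp [veluQ]

theorem veluQ_map {R S : Type*} [CommRing R] [CommRing S] (f : R →+* S) (E : WeierstrassCurve R)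
    (t w : R) : (veluQ E t w).map f = veluQ (E.map f) (f t) (f w) := by
  ext <;> simp [veluQ, WeierstrassCurve.map, WeierstrassCurve.b₂, map_ofNat]

theorem veluQ_c₄ {R : Type*} [CommRing R] (E : WeierstrassCurve R) (t w : R) :
    (veluQ E t w).c₄ = E.c₄ + 240 * t := by
  simp only [veluQ, WeierstrassCurve.c₄, WeierstrassCurve.b₂, WeierstrassCurve.b₄]
  ring

/-! ### Reduction calculus for the Vélu quantities -/

section Gen

variable {K : Type*} [Field K] [DecidableEq K] {A : ValuationSubring K}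
  {k : Type*} [Field k] [DecidableEq k] {π : A →+* k}
  {WK : Affine K} {Wk : Affine k}

theorem Model.b₆' (M : Model A π WK Wk) : Rd A π WK.b₆ Wk.b₆ :=
  (M.a₃.pow 2).add ((rd_ofNat 4).mul M.a₆)

theorem Model.b₈' (M : Model A π WK Wk) : Rd A π WK.b₈ Wk.b₈ :=
  (((((M.a₁.pow 2).mul M.a₆).add (((rd_ofNat 4).mul M.a₂).mul M.a₆)).sub
    ((M.a₁.mul M.a₃).mul M.a₄)).add (M.a₂.mul (M.a₃.pow 2))).sub (M.a₄.pow 2)

/-- The discriminant of a model reduces to the discriminant of the reduced curve. -/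
theorem Model.disc (M : Model A π WK Wk) : Rd A π WK.Δ Wk.Δ :=
  ((((((Model.b₂ M).pow 2).neg.mul (Model.b₈' M)).sub
    ((rd_ofNat 8).mul ((Model.b₄ M).pow 3))).sub
    ((rd_ofNat 27).mul ((Model.b₆' M).pow 2))).add
    ((((rd_ofNat 9).mul (Model.b₂ M)).mul (Model.b₄ M)).mul (Model.b₆' M)))

/-- The Vélu curve of a model is a model. -/
theorem model_velu (M : Model A π WK Wk) {t w : K} {τ ω : k} (rt : Rd A π t τ)
    (rw : Rd A π w ω) : Model A π (veluQ WK t w) (veluQ Wk τ ω) :=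
  ⟨M.a₁, M.a₂, M.a₃, M.a₄.sub ((rd_ofNat 5).mul rt),
    (M.a₆.sub ((Model.b₂ M).mul rt)).sub ((rd_ofNat 7).mul rw)⟩

theorem ptX_mem {P : WK.Point} (h : IsInt A P) : ptX P ∈ A := by
  rcases P with _ | ⟨x, y, hxy⟩
  · exact A.zero_mem
  · exact h.1

theorem ptY_mem {P : WK.Point} (h : IsInt A P) : ptY P ∈ A := by
  rcases P with _ | ⟨x, y, hxy⟩
  · exact A.zero_mem
  · exact h.2

theorem rd_tq' (M : Model A π WK Wk) {P : WK.Point} {c : k} (rx : Rd A π (ptX P) c) :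
    Rd A π (tq P) (6 * c ^ 2 + Wk.b₂ * c + Wk.b₄) :=
  (((rd_ofNat 6).mul (rx.pow 2)).add ((Model.b₂ M).mul rx)).add (Model.b₄ M)

theorem rd_psi2' (M : Model A π WK Wk) {P : WK.Point} {c d : k} (rx : Rd A π (ptX P) c)
    (ry : Rd A π (ptY P) d) : Rd A π (psi2 P) (2 * d + Wk.a₁ * c + Wk.a₃) :=
  (((rd_ofNat 2).mul ry).add (M.a₁.mul rx)).add M.a₃

/-- Half of a symmetric sum over `0 < j < p` reduces to the sum over `0 < j < (p + 1) / 2`. -/
theorem rd_half_sum (h2 : (2 : K) ≠ 0) {p : ℕ} (hp : Odd p) (f : ℕ → K) (g : ℕ → k)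
    (hf : ∀ j, 0 < j → j < p → f (p - j) = f j)
    (h : ∀ j ∈ Finset.Ico 1 ((p + 1) / 2), Rd A π (f j) (g j)) :
    Rd A π ((∑ j ∈ Finset.Ico 1 p, f j) / 2) (∑ j ∈ Finset.Ico 1 ((p + 1) / 2), g j) := by
  rw [sum_Ico_pair p hp f hf, two_nsmul, ← two_mul, mul_div_cancel_left₀ _ h2]
  exact rd_sum _ _ _ h

/-- Vélu's `t`: reduction, from reductions of the `x`-coordinates of the multiples of `T`. -/
theorem rd_veluT (M : Model A π WK Wk) (h2 : (2 : K) ≠ 0) {p : ℕ} (hp : Odd p) {T : WK.Point}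
    (hT : p • T = 0) (c : ℕ → k) (hc : ∀ j, Rd A π (ptX (j • T)) (c j)) :
    Rd A π ((∑ j ∈ Finset.Ico 1 p, tq (j • T)) / 2)
      (∑ j ∈ Finset.Ico 1 ((p + 1) / 2), (6 * c j ^ 2 + Wk.b₂ * c j + Wk.b₄)) := by
  refine rd_half_sum h2 hp _ _ (fun j _ hj => ?_) (fun j _ => rd_tq' M (hc j))
  rw [sub_nsmul_eq_neg hT hj.le, tq_neg]

/-- Vélu's `w`: reduction, from reductions of the coordinates of the multiples of `T`. -/
theorem rd_veluW (M : Model A π WK Wk) (h2 : (2 : K) ≠ 0) {p : ℕ} (hp : Odd p) {T : WK.Point}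
    (hT : p • T = 0) (c d : ℕ → k) (hc : ∀ j, Rd A π (ptX (j • T)) (c j))
    (hd : ∀ j, Rd A π (ptY (j • T)) (d j)) :
    Rd A π ((∑ j ∈ Finset.Ico 1 p, (psi2 (j • T) ^ 2 + ptX (j • T) * tq (j • T))) / 2)
      (∑ j ∈ Finset.Ico 1 ((p + 1) / 2), ((2 * d j + Wk.a₁ * c j + Wk.a₃) ^ 2 +
        c j * (6 * c j ^ 2 + Wk.b₂ * c j + Wk.b₄))) := by
  refine rd_half_sum h2 hp _ _ (fun j _ hj => ?_)
    (fun j _ => ((rd_psi2' M (hc j) (hd j)).pow 2).add ((hc j).mul (rd_tq' M (hc j))))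
  rw [sub_nsmul_eq_neg hT hj.le, tq_neg, psi2_neg_sq, ptX_neg]

end Gen

/-! ### The integral model at a prime `ℓ ≠ p` -/

section Main

variable (W : WeierstrassCurve ℤ) {p ℓ : ℕ} (A : ValuationSubring (AlgebraicClosure ℚ))
  (T : ((W.map (Int.castRingHom ℚ))⁄(AlgebraicClosure ℚ)).Point) (t w : ℚ)

theorem val_intCast_eq_one (hℓ : ℓ.Prime) (hA : A.LiesOverPrime ℓ) {n : ℤ}
    (h : ¬ (ℓ : ℤ) ∣ n) : A.valuation ((n : ℤ) : AlgebraicClosure ℚ) = 1 := by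
  have : CharP (ResidueField A) ℓ :=
    Fermat.Agent.ESJ.Cong.ConjAnalytic.charP_residueField_of_liesOver A hℓ hA
  exact val_eq_one_of_rd (rd_intCast A (residue A) n)
    (fun h0 => h ((CharP.intCast_eq_zero_iff (ResidueField A) ℓ n).mp h0))

theorem val_intCast_lt_one (hℓ : ℓ.Prime) (hA : A.LiesOverPrime ℓ) {n : ℤ}
    (h : (ℓ : ℤ) ∣ n) : A.valuation ((n : ℤ) : AlgebraicClosure ℚ) < 1 := by
  let _ : DecidableEq (ResidueField A) := Classical.decEq _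
  have : CharP (ResidueField A) ℓ :=
    Fermat.Agent.ESJ.Cong.ConjAnalytic.charP_residueField_of_liesOver A hℓ hA
  exact val_lt_one_of_rd (Rd.of_eq (rd_intCast A (residue A) n)
    ((CharP.intCast_eq_zero_iff (ResidueField A) ℓ n).mpr h))

/-- The discriminant of the rational curve of `W`, in `ℚ̄`. -/
theorem cast_disc : (((W.map (Int.castRingHom ℚ)).Δ : ℚ) : AlgebraicClosure ℚ) =
    ((W.Δ : ℤ) : AlgebraicClosure ℚ) := by
  rw [map_Δ]
  simp

/-- The multiples of a point of order `p` have `A`-integral coordinates (`A` over `ℓ ≠ p`). -/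
theorem exists_rd_nsmul (hp : p.Prime) (hℓ : ℓ.Prime) (hℓp : ℓ ≠ p) (hA : A.LiesOverPrime ℓ)
    (hT : p • T = 0) :
    ∃ c d : ℕ → ResidueField A, (∀ j, Rd A (residue A) (ptX (j • T)) (c j)) ∧
      ∀ j, Rd A (residue A) (ptY (j • T)) (d j) := by
  let _ : DecidableEq (ResidueField A) := Classical.decEq _
  obtain ⟨-, hTs⟩ := mem_torsSub_of_order (W := W) hp hℓ hℓp hA hT
  have hint : ∀ j : ℕ, IsInt A (j • T) := fun j =>
    isInt_of_mem_torsSub (model_res W A) ((torsSub (ResidueField A) _).nsmul_mem hTs j)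
  exact ⟨fun j => residue A ⟨_, ptX_mem (hint j)⟩, fun j => residue A ⟨_, ptY_mem (hint j)⟩,
    fun j => rd_of_mem _, fun j => rd_of_mem _⟩

/-- Vélu's discriminant and `c₄` in `ℚ̄`, as those of the Vélu curve of the curve over `ℚ̄`. -/
theorem cast_velu_disc :
    (((veluQ (W.map (Int.castRingHom ℚ)) t w).Δ : ℚ) : AlgebraicClosure ℚ) =
      (veluQ ((W.map (Int.castRingHom ℚ))⁄(AlgebraicClosure ℚ)).toAffine
        (t : AlgebraicClosure ℚ) (w : AlgebraicClosure ℚ)).Δ := by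
  rw [← eq_ratCast (algebraMap ℚ (AlgebraicClosure ℚ)), ← map_Δ, veluQ_map, eq_ratCast,
    eq_ratCast]
  rfl

/-- The `c₄` of the Vélu curve is `veluC4`. -/
theorem cast_velu_c₄
    (ht : (t : AlgebraicClosure ℚ) = (∑ k ∈ Finset.Ico 1 p, tq (k • T)) / 2) :
    (((veluQ (W.map (Int.castRingHom ℚ)) t w).c₄ : ℚ) : AlgebraicClosure ℚ) = veluC4 p T := by
  have e : ((W.map (Int.castRingHom ℚ))⁄(AlgebraicClosure ℚ)).toAffine.c₄ =
      (((W.map (Int.castRingHom ℚ)).c₄ : ℚ) : AlgebraicClosure ℚ) := by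
    rw [← eq_ratCast (algebraMap ℚ (AlgebraicClosure ℚ)), ← map_c₄]
    rfl
  rw [veluQ_c₄, Rat.cast_add, Rat.cast_mul, Rat.cast_ofNat, ht]
  unfold veluC4
  rw [e]
  ring

/-- **(L1)** `t ∈ A`. -/
theorem t_mem (hp : p.Prime) (hp2 : p ≠ 2) (hℓ : ℓ.Prime) (hℓp : ℓ ≠ p)
    (hA : A.LiesOverPrime ℓ) (hT : p • T = 0)
    (ht : (t : AlgebraicClosure ℚ) = (∑ k ∈ Finset.Ico 1 p, tq (k • T)) / 2) :
    (t : AlgebraicClosure ℚ) ∈ A := by
  let _ : DecidableEq (ResidueField A) := Classical.decEq _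
  obtain ⟨c, d, hc, hd⟩ := exists_rd_nsmul W A T hp hℓ hℓp hA hT
  rw [ht]
  exact (rd_veluT (model_res W A) two_ne_zero (hp.odd_of_ne_two hp2) hT c hc).mem

/-- **(L1)** `w ∈ A`. -/
theorem w_mem (hp : p.Prime) (hp2 : p ≠ 2) (hℓ : ℓ.Prime) (hℓp : ℓ ≠ p)
    (hA : A.LiesOverPrime ℓ) (hT : p • T = 0)
    (hw : (w : AlgebraicClosure ℚ) =
      (∑ k ∈ Finset.Ico 1 p, (psi2 (k • T) ^ 2 + ptX (k • T) * tq (k • T))) / 2) :
    (w : AlgebraicClosure ℚ) ∈ A := by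
  let _ : DecidableEq (ResidueField A) := Classical.decEq _
  obtain ⟨c, d, hc, hd⟩ := exists_rd_nsmul W A T hp hℓ hℓp hA hT
  rw [hw]
  exact (rd_veluW (model_res W A) two_ne_zero (hp.odd_of_ne_two hp2) hT c d hc hd).mem

/-- `veluPsi ∈ A`. -/
theorem veluPsi_mem (hp : p.Prime) (hℓ : ℓ.Prime) (hℓp : ℓ ≠ p)
    (hA : A.LiesOverPrime ℓ) (hT : p • T = 0) : veluPsi p T ∈ A := by
  let _ : DecidableEq (ResidueField A) := Classical.decEq _
  obtain ⟨c, d, hc, hd⟩ := exists_rd_nsmul W A T hp hℓ hℓp hA hT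
  have r : Rd A (residue A) (∏ j ∈ Finset.Ico 1 p, psi2 (j • T)) _ :=
    rd_prod _ _ _ fun j _ => rd_psi2' (model_res W A) (hc j) (hd j)
  exact r.mem

/-- The discriminant of the Vélu curve is `A`-integral. -/
theorem velu_disc_mem (hp : p.Prime) (hp2 : p ≠ 2) (hℓ : ℓ.Prime) (hℓp : ℓ ≠ p)
    (hA : A.LiesOverPrime ℓ) (hT : p • T = 0)
    (ht : (t : AlgebraicClosure ℚ) = (∑ k ∈ Finset.Ico 1 p, tq (k • T)) / 2)
    (hw : (w : AlgebraicClosure ℚ) =
      (∑ k ∈ Finset.Ico 1 p, (psi2 (k • T) ^ 2 + ptX (k • T) * tq (k • T))) / 2) :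
    (((veluQ (W.map (Int.castRingHom ℚ)) t w).Δ : ℚ) : AlgebraicClosure ℚ) ∈ A := by
  let _ : DecidableEq (ResidueField A) := Classical.decEq _
  have rt := rd_of_mem (π := residue A) (t_mem W A T t hp hp2 hℓ hℓp hA hT ht)
  have rw' := rd_of_mem (π := residue A) (w_mem W A T w hp hp2 hℓ hℓp hA hT hw)
  rw [cast_velu_disc]
  exact (Model.disc (model_velu (model_res W A) rt rw')).mem

/-- **(L2)** good reduction at `ℓ ≠ p`: the discriminant of the Vélu curve is a unit at `A`. -/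
theorem val_disc_good (hp : p.Prime) (hp2 : p ≠ 2) (hℓ : ℓ.Prime) (hℓp : ℓ ≠ p)
    (hA : A.LiesOverPrime ℓ) (hT : p • T = 0) (hgood : ¬ (ℓ : ℤ) ∣ W.Δ)
    (ht : (t : AlgebraicClosure ℚ) = (∑ k ∈ Finset.Ico 1 p, tq (k • T)) / 2)
    (hw : (w : AlgebraicClosure ℚ) =
      (∑ k ∈ Finset.Ico 1 p, (psi2 (k • T) ^ 2 + ptX (k • T) * tq (k • T))) / 2)
    (hψ : (((veluQ (W.map (Int.castRingHom ℚ)) t w).Δ : ℚ) : AlgebraicClosure ℚ) *
      veluPsi p T ^ 4 = (((W.map (Int.castRingHom ℚ)).Δ : ℚ) : AlgebraicClosure ℚ) ^ p) :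
    A.valuation (((veluQ (W.map (Int.castRingHom ℚ)) t w).Δ : ℚ) : AlgebraicClosure ℚ) = 1 := by
  have h1 : A.valuation (((veluQ (W.map (Int.castRingHom ℚ)) t w).Δ : ℚ) : AlgebraicClosure ℚ) ≤ 1 :=
    (A.valuation_le_one_iff _).mpr (velu_disc_mem W A T t w hp hp2 hℓ hℓp hA hT ht hw)
  have h2 : A.valuation (veluPsi p T) ^ 4 ≤ 1 :=
    pow_le_one' ((A.valuation_le_one_iff _).mpr (veluPsi_mem W A T hp hℓ hℓp hA hT)) 4
  have h3 := congrArg A.valuation hψ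
  rw [map_mul, map_pow, map_pow, cast_disc, val_intCast_eq_one A hℓ hA hgood, one_pow] at h3
  refine le_antisymm h1 ?_
  rw [← h3]
  exact mul_le_of_le_one_right' h2

/-- **(L3)** multiplicative reduction at `ℓ ≠ p`, `T` in the zero component (toric kernel):
`c₄` of the Vélu curve is a unit at `A` and its discriminant lies in the maximal ideal. -/
theorem val_toric (hp : p.Prime) (hp2 : p ≠ 2) (hℓ : ℓ.Prime) (hℓp : ℓ ≠ p)
    (hA : A.LiesOverPrime ℓ) (hTord : addOrderOf T = p)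
    (hℓΔ : (ℓ : ℤ) ∣ W.Δ) (hℓc₄ : ¬ (ℓ : ℤ) ∣ W.c₄) (hin : W.InZeroComponentAt A T)
    (ht : (t : AlgebraicClosure ℚ) = (∑ k ∈ Finset.Ico 1 p, tq (k • T)) / 2)
    (hψ : (((veluQ (W.map (Int.castRingHom ℚ)) t w).Δ : ℚ) : AlgebraicClosure ℚ) *
      veluPsi p T ^ 4 = (((W.map (Int.castRingHom ℚ)).Δ : ℚ) : AlgebraicClosure ℚ) ^ p) :
    A.valuation (((veluQ (W.map (Int.castRingHom ℚ)) t w).c₄ : ℚ) : AlgebraicClosure ℚ) = 1 ∧
      A.valuation (((veluQ (W.map (Int.castRingHom ℚ)) t w).Δ : ℚ) : AlgebraicClosure ℚ) < 1 := by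
  obtain ⟨h1, h2⟩ := velu_of_inZero W T A hp hp2 hTord hℓ hℓp hℓΔ hℓc₄ hA hin
  refine ⟨by rw [cast_velu_c₄ W T t w ht]; exact h1, ?_⟩
  have h3 := congrArg A.valuation hψ
  rw [map_mul, map_pow, map_pow, h2, one_pow, mul_one, cast_disc] at h3
  rw [h3]
  exact pow_lt_one' (val_intCast_lt_one A hℓ hA hℓΔ) hp.ne_zero

/-- **(L4)** multiplicative reduction at `ℓ ≠ p`, `T` NOT in the zero component (non-toric
kernel): `t, w ∈ 𝔪_A` (so the Vélu curve is congruent to `W` modulo `𝔪_A`), `c₄` of the Vélu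
curve is a unit at `A` and its discriminant lies in the maximal ideal. -/
theorem val_nontoric (hp : p.Prime) (hp2 : p ≠ 2) (hℓ : ℓ.Prime) (hℓp : ℓ ≠ p)
    (hA : A.LiesOverPrime ℓ) (hTord : addOrderOf T = p)
    (hℓΔ : (ℓ : ℤ) ∣ W.Δ) (hℓc₄ : ¬ (ℓ : ℤ) ∣ W.c₄) (hout : ¬ W.InZeroComponentAt A T)
    (ht : (t : AlgebraicClosure ℚ) = (∑ k ∈ Finset.Ico 1 p, tq (k • T)) / 2)
    (hw : (w : AlgebraicClosure ℚ) =
      (∑ k ∈ Finset.Ico 1 p, (psi2 (k • T) ^ 2 + ptX (k • T) * tq (k • T))) / 2) :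
    A.valuation (t : AlgebraicClosure ℚ) < 1 ∧ A.valuation (w : AlgebraicClosure ℚ) < 1 ∧
    A.valuation (((veluQ (W.map (Int.castRingHom ℚ)) t w).c₄ : ℚ) : AlgebraicClosure ℚ) = 1 ∧
      A.valuation (((veluQ (W.map (Int.castRingHom ℚ)) t w).Δ : ℚ) : AlgebraicClosure ℚ) < 1 := by
  let _ : DecidableEq (ResidueField A) := Classical.decEq _
  have M := model_res W A
  have hT : p • T = 0 := by rw [← hTord]; exact addOrderOf_nsmul_eq_zero T
  have hodd : Odd p := hp.odd_of_ne_two hp2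
  obtain ⟨c, d, hc, hd⟩ := exists_rd_nsmul W A T hp hℓ hℓp hA hT
  -- the reductions of the multiples are singular points
  have key : ∀ j ∈ Finset.Ico 1 ((p + 1) / 2),
      2 * d j + (W.map (Int.castRingHom (ResidueField A))).toAffine.a₁ * c j +
        (W.map (Int.castRingHom (ResidueField A))).toAffine.a₃ = 0 ∧
      6 * c j ^ 2 + (W.map (Int.castRingHom (ResidueField A))).toAffine.b₂ * c j +
        (W.map (Int.castRingHom (ResidueField A))).toAffine.b₄ = 0 := by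
    intro j hj
    rw [Finset.mem_Ico] at hj
    have hjp : j < p := by
      obtain ⟨m, rfl⟩ := hodd
      omega
    have hpj : ¬ p ∣ j := fun hd => by
      have := Nat.le_of_dvd (by omega) hd
      omega
    obtain ⟨x, y, h, c', d', hjQ, rx, ry, he, hs⟩ :=
      sing_of_not_inZero hp hℓ hℓp hA hTord hout j hpj
    have hcx : Rd A (residue A) x (c j) := by
      have := hc j
      rwa [hjQ] at this
    have hdy : Rd A (residue A) y (d j) := by
      have := hd j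
      rwa [hjQ] at this
    rw [hcx.unique rx, hdy.unique ry]
    exact sing_eqs he hs
  have rt : Rd A (residue A) (t : AlgebraicClosure ℚ) 0 := by
    rw [ht]
    refine Rd.of_eq (rd_veluT M two_ne_zero hodd hT c hc) ?_
    exact Finset.sum_eq_zero fun j hj => (key j hj).2
  have rw' : Rd A (residue A) (w : AlgebraicClosure ℚ) 0 := by
    rw [hw]
    refine Rd.of_eq (rd_veluW M two_ne_zero hodd hT c d hc hd) ?_
    refine Finset.sum_eq_zero fun j hj => ?_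
    rw [(key j hj).1, (key j hj).2]
    ring
  refine ⟨val_lt_one_of_rd rt, val_lt_one_of_rd rw', ?_, ?_⟩
  · rw [cast_velu_c₄ W T t w ht]
    exact (velu_of_not_inZero W T A hp hTord hℓ hℓp hℓΔ hℓc₄ hA hout).1
  · rw [cast_velu_disc]
    refine val_lt_one_of_rd (Rd.of_eq (Model.disc (model_velu M rt rw')) ?_)
    rw [veluQ_zero]
    exact (reduced_disc W A hℓ hℓΔ hℓc₄ hA).1

/-- **(L3) + (L4)** multiplicative reduction at `ℓ ≠ p` (both types of kernel): `c₄` of the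
Vélu curve is a unit at `A` and its discriminant lies in the maximal ideal. -/
theorem val_mult (hp : p.Prime) (hp2 : p ≠ 2) (hℓ : ℓ.Prime) (hℓp : ℓ ≠ p)
    (hA : A.LiesOverPrime ℓ) (hTord : addOrderOf T = p)
    (hℓΔ : (ℓ : ℤ) ∣ W.Δ) (hℓc₄ : ¬ (ℓ : ℤ) ∣ W.c₄)
    (ht : (t : AlgebraicClosure ℚ) = (∑ k ∈ Finset.Ico 1 p, tq (k • T)) / 2)
    (hw : (w : AlgebraicClosure ℚ) =
      (∑ k ∈ Finset.Ico 1 p, (psi2 (k • T) ^ 2 + ptX (k • T) * tq (k • T))) / 2)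
    (hψ : (((veluQ (W.map (Int.castRingHom ℚ)) t w).Δ : ℚ) : AlgebraicClosure ℚ) *
      veluPsi p T ^ 4 = (((W.map (Int.castRingHom ℚ)).Δ : ℚ) : AlgebraicClosure ℚ) ^ p) :
    A.valuation (((veluQ (W.map (Int.castRingHom ℚ)) t w).c₄ : ℚ) : AlgebraicClosure ℚ) = 1 ∧
      A.valuation (((veluQ (W.map (Int.castRingHom ℚ)) t w).Δ : ℚ) : AlgebraicClosure ℚ) < 1 := by
  by_cases hin : W.InZeroComponentAt A T
  · exact val_toric W A T t w hp hp2 hℓ hℓp hA hTord hℓΔ hℓc₄ hin ht hψ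
  · exact (val_nontoric W A T t w hp hp2 hℓ hℓp hA hTord hℓΔ hℓc₄ hin ht hw).2.2

end Main

end Fermat.Agent.S12P.Step73
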