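/-
S12 project, row 633 (STEP), LOC: the `ℓ`-clause of `StepLite` for the scaled integral model
(seat helper73; literals of the deputy helper89, report #5274).

On top of `S12P/Step73/LocQ.lean` (valuations of `c₄`, `Δ` of the rational Vélu curve
`V = veluQ W_ℚ t w` at a valuation subring `A` of `ℚ̄` over `ℓ ≠ p`):

* `loc_int` : `ℓ ∤ t.den`, `ℓ ∤ w.den` (every `ℓ ≠ p`);
* `loc_good`, `loc_mult` : `LocQ.val_disc_good`, `LocQ.val_mult` in the deputy's binder order;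
* `loc_final` : for any integral `W'` with `Δ(W') = d¹² Δ(V)`, `c₄(W') = d⁴ c₄(V)`,
  `d = t.den * w.den`: good stays good, multiplicative stays multiplicative at `ℓ`.
-/
import Mathlib
import Fermat.Agent.S12P.Step73.LocQ

set_option autoImplicit false
set_option linter.unusedSectionVars false
set_option linter.style.haveILetI false

namespace Fermat.Agent.S12P.Step73

open WeierstrassCurve WeierstrassCurve.Affine IsLocalRing
open Fermat.Agent.S58.Red Fermat.Agent.S15P.M2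

section

variable (W : WeierstrassCurve ℤ) {p ℓ : ℕ}
  (T : ((W.map (Int.castRingHom ℚ))⁄(AlgebraicClosure ℚ)).Point)

/-- Divisibility of an integer by `ℓ`, read off a valuation subring of `ℚ̄` over `ℓ`. -/
theorem dvd_iff_val_lt_one (hℓ : ℓ.Prime) (A : ValuationSubring (AlgebraicClosure ℚ))
    (hA : A.LiesOverPrime ℓ) (n : ℤ) :
    (ℓ : ℤ) ∣ n ↔ A.valuation ((n : ℤ) : AlgebraicClosure ℚ) < 1 := by
  constructor
  · exact val_intCast_lt_one A hℓ hA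
  · intro h
    by_contra hn
    exact (ne_of_lt h) (val_intCast_eq_one A hℓ hA hn)

/-- A rational number which is integral at `A` has denominator prime to `ℓ`. -/
theorem not_dvd_den (hℓ : ℓ.Prime) (A : ValuationSubring (AlgebraicClosure ℚ))
    (hA : A.LiesOverPrime ℓ) (q : ℚ) (hq : (q : AlgebraicClosure ℚ) ∈ A) :
    ¬ (ℓ : ℤ) ∣ (q.den : ℤ) := by
  intro hden
  have h1 : A.valuation (((q.den : ℤ) : ℤ) : AlgebraicClosure ℚ) < 1 :=
    val_intCast_lt_one A hℓ hA hden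
  have h2 : A.valuation (q : AlgebraicClosure ℚ) ≤ 1 := (A.valuation_le_one_iff _).mpr hq
  have e : (q : AlgebraicClosure ℚ) * (((q.den : ℤ) : ℤ) : AlgebraicClosure ℚ) =
      ((q.num : ℤ) : AlgebraicClosure ℚ) := by
    have h := congrArg (fun x : ℚ => (x : AlgebraicClosure ℚ)) (Rat.mul_den_eq_num q)
    push_cast at h
    exact_mod_cast h
  have h3 : A.valuation ((q.num : ℤ) : AlgebraicClosure ℚ) < 1 := by
    rw [← e, map_mul]
    exact lt_of_le_of_lt (mul_le_of_le_one_left' h2) h1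
  have hnum : (ℓ : ℤ) ∣ q.num := (dvd_iff_val_lt_one hℓ A hA q.num).mpr h3
  have hcop : q.num.natAbs.Coprime q.den := q.reduced
  have hd1 : ℓ ∣ q.num.natAbs := Int.natCast_dvd.mp hnum
  have hd2 : ℓ ∣ q.den := Int.natCast_dvd_natCast.mp hden
  exact hℓ.one_lt.ne' (Nat.eq_one_of_dvd_coprimes hcop hd1 hd2)

/-- **(LOC-int)** the denominators of Vélu's `t`, `w` are prime to every `ℓ ≠ p`. -/
theorem loc_int (hp : p.Prime) (hp2 : p ≠ 2) (hT : addOrderOf T = p) (hℓ : ℓ.Prime)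
    (hℓp : ℓ ≠ p) (A : ValuationSubring (AlgebraicClosure ℚ)) (hA : A.LiesOverPrime ℓ)
    (t w : ℚ)
    (ht : (t : AlgebraicClosure ℚ) = (∑ k ∈ Finset.Ico 1 p, tq (k • T)) / 2)
    (hw : (w : AlgebraicClosure ℚ) =
      (∑ k ∈ Finset.Ico 1 p, (psi2 (k • T) ^ 2 + ptX (k • T) * tq (k • T))) / 2) :
    ¬ (ℓ : ℤ) ∣ (t.den : ℤ) ∧ ¬ (ℓ : ℤ) ∣ (w.den : ℤ) := by
  have hT0 : p • T = 0 := by rw [← hT]; exact addOrderOf_nsmul_eq_zero T
  exact ⟨not_dvd_den hℓ A hA t (t_mem W A T t hp hp2 hℓ hℓp hA hT0 ht),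
    not_dvd_den hℓ A hA w (w_mem W A T w hp hp2 hℓ hℓp hA hT0 hw)⟩

/-- **(LOC-good)** good reduction at `ℓ ≠ p`: `Δ` of the Vélu curve is a unit at `A`. -/
theorem loc_good (hp : p.Prime) (hp2 : p ≠ 2) (hT : addOrderOf T = p) (hℓ : ℓ.Prime)
    (hℓp : ℓ ≠ p) (A : ValuationSubring (AlgebraicClosure ℚ)) (hA : A.LiesOverPrime ℓ)
    (t w : ℚ)
    (ht : (t : AlgebraicClosure ℚ) = (∑ k ∈ Finset.Ico 1 p, tq (k • T)) / 2)
    (hw : (w : AlgebraicClosure ℚ) =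
      (∑ k ∈ Finset.Ico 1 p, (psi2 (k • T) ^ 2 + ptX (k • T) * tq (k • T))) / 2)
    (hD : (((veluQ (W.map (Int.castRingHom ℚ)) t w).Δ : ℚ) : AlgebraicClosure ℚ) *
      veluPsi p T ^ 4 = (((W.map (Int.castRingHom ℚ)).Δ : ℚ) : AlgebraicClosure ℚ) ^ p)
    (hgood : ¬ (ℓ : ℤ) ∣ W.Δ) :
    A.valuation (((veluQ (W.map (Int.castRingHom ℚ)) t w).Δ : ℚ) : AlgebraicClosure ℚ) = 1 := by
  have hT0 : p • T = 0 := by rw [← hT]; exact addOrderOf_nsmul_eq_zero T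
  exact val_disc_good W A T t w hp hp2 hℓ hℓp hA hT0 hgood ht hw hD

/-- **(LOC-mult)** multiplicative reduction at `ℓ ≠ p` (toric and non-toric kernels):
`c₄` of the Vélu curve is a unit at `A`, its `Δ` is in the maximal ideal. -/
theorem loc_mult (hp : p.Prime) (hp2 : p ≠ 2) (hT : addOrderOf T = p) (hℓ : ℓ.Prime)
    (hℓp : ℓ ≠ p) (A : ValuationSubring (AlgebraicClosure ℚ)) (hA : A.LiesOverPrime ℓ)
    (t w : ℚ)
    (ht : (t : AlgebraicClosure ℚ) = (∑ k ∈ Finset.Ico 1 p, tq (k • T)) / 2)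
    (hw : (w : AlgebraicClosure ℚ) =
      (∑ k ∈ Finset.Ico 1 p, (psi2 (k • T) ^ 2 + ptX (k • T) * tq (k • T))) / 2)
    (hD : (((veluQ (W.map (Int.castRingHom ℚ)) t w).Δ : ℚ) : AlgebraicClosure ℚ) *
      veluPsi p T ^ 4 = (((W.map (Int.castRingHom ℚ)).Δ : ℚ) : AlgebraicClosure ℚ) ^ p)
    (hℓΔ : (ℓ : ℤ) ∣ W.Δ) (hℓc₄ : ¬ (ℓ : ℤ) ∣ W.c₄) :
    A.valuation (((veluQ (W.map (Int.castRingHom ℚ)) t w).c₄ : ℚ) : AlgebraicClosure ℚ) = 1 ∧
      A.valuation (((veluQ (W.map (Int.castRingHom ℚ)) t w).Δ : ℚ) : AlgebraicClosure ℚ) < 1 :=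
  val_mult W A T t w hp hp2 hℓ hℓp hA hT hℓΔ hℓc₄ ht hw hD

/-- **(LOC-final)** the `ℓ`-clause of `StepLite`, for ANY integral model `W'` whose `Δ`, `c₄`
are those of the Vélu curve scaled by `d = t.den * w.den`: good stays good and multiplicative
stays multiplicative at every prime `ℓ ≠ p`. -/
theorem loc_final (hp : p.Prime) (hp2 : p ≠ 2) (hT : addOrderOf T = p) (hℓ : ℓ.Prime)
    (hℓp : ℓ ≠ p) (A : ValuationSubring (AlgebraicClosure ℚ)) (hA : A.LiesOverPrime ℓ)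
    (t w : ℚ)
    (ht : (t : AlgebraicClosure ℚ) = (∑ k ∈ Finset.Ico 1 p, tq (k • T)) / 2)
    (hw : (w : AlgebraicClosure ℚ) =
      (∑ k ∈ Finset.Ico 1 p, (psi2 (k • T) ^ 2 + ptX (k • T) * tq (k • T))) / 2)
    (hD : (((veluQ (W.map (Int.castRingHom ℚ)) t w).Δ : ℚ) : AlgebraicClosure ℚ) *
      veluPsi p T ^ 4 = (((W.map (Int.castRingHom ℚ)).Δ : ℚ) : AlgebraicClosure ℚ) ^ p)
    (W' : WeierstrassCurve ℤ) (d : ℤ) (hd : d = t.den * w.den)
    (hΔ' : ((W'.Δ : ℤ) : ℚ) = d ^ 12 * (veluQ (W.map (Int.castRingHom ℚ)) t w).Δ)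
    (hc₄' : ((W'.c₄ : ℤ) : ℚ) = d ^ 4 * (veluQ (W.map (Int.castRingHom ℚ)) t w).c₄) :
    (¬ (ℓ : ℤ) ∣ W.Δ → ¬ (ℓ : ℤ) ∣ W'.Δ) ∧
      ((ℓ : ℤ) ∣ W.Δ → ¬ (ℓ : ℤ) ∣ W.c₄ → (ℓ : ℤ) ∣ W'.Δ ∧ ¬ (ℓ : ℤ) ∣ W'.c₄) := by
  obtain ⟨hdt, hdw⟩ := loc_int W T hp hp2 hT hℓ hℓp A hA t w ht hw
  -- `d` is a unit at `A`
  have hvd : A.valuation ((d : ℤ) : AlgebraicClosure ℚ) = 1 := by
    rw [hd]
    push_cast
    rw [map_mul]
    have h1 := val_intCast_eq_one A hℓ hA hdt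
    have h2 := val_intCast_eq_one A hℓ hA hdw
    push_cast at h1 h2
    rw [h1, h2, mul_one]
  have eΔ : A.valuation ((W'.Δ : ℤ) : AlgebraicClosure ℚ) =
      A.valuation (((veluQ (W.map (Int.castRingHom ℚ)) t w).Δ : ℚ) : AlgebraicClosure ℚ) := by
    have h := congrArg (fun x : ℚ => (x : AlgebraicClosure ℚ)) hΔ'
    push_cast at h
    rw [h, map_mul, map_pow, hvd, one_pow, one_mul]
  have ec : A.valuation ((W'.c₄ : ℤ) : AlgebraicClosure ℚ) =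
      A.valuation (((veluQ (W.map (Int.castRingHom ℚ)) t w).c₄ : ℚ) : AlgebraicClosure ℚ) := by
    have h := congrArg (fun x : ℚ => (x : AlgebraicClosure ℚ)) hc₄'
    push_cast at h
    rw [h, map_mul, map_pow, hvd, one_pow, one_mul]
  constructor
  · intro hgood hdvd
    have h1 := (dvd_iff_val_lt_one hℓ A hA W'.Δ).mp hdvd
    rw [eΔ, loc_good W T hp hp2 hT hℓ hℓp A hA t w ht hw hD hgood] at h1
    exact lt_irrefl _ h1
  · intro hℓΔ hℓc₄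
    obtain ⟨h1, h2⟩ := loc_mult W T hp hp2 hT hℓ hℓp A hA t w ht hw hD hℓΔ hℓc₄
    refine ⟨(dvd_iff_val_lt_one hℓ A hA W'.Δ).mpr (by rw [eΔ]; exact h2), fun hdvd => ?_⟩
    have h3 := (dvd_iff_val_lt_one hℓ A hA W'.c₄).mp hdvd
    rw [ec, h1] at h3
    exact lt_irrefl _ h3

end

end Fermat.Agent.S12P.Step73
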